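import Fermat.Agent.S56.FO.H6.Struct
import Fermat.Agent.S56.H656.FlatOCount
import Fermat.Agent.S56.H656.FlatUnit
import Fermat.Agent.S56.H734.KumMain
import Fermat.Agent.S56.H486.FlatOLoc

/-!
# Row S56 — FLAT-O closed (helper6)

* `flatOrdLineStatement : H656.FlatOrdLineStatement` (STRUCT, verbatim, from `flatOrdLine`);
* `flatO : FL.FlatOStatement` from COUNT (`H656.flatO_of`), FU (`H656.flatUnit`),
  KUM (`H734.kum`) and UNRHOM (`H486.unramHom`).

Nothing unproved in this file.
-/

set_option autoImplicit false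

open IsLocalRing

noncomputable section

namespace Fermat.Agent.S56.FO.H6

open Fermat.Agent.S56 Fermat.Agent.S56.H716

/-- **STRUCT**, in the frozen form consumed by COUNT. -/
theorem flatOrdLineStatement : Fermat.Agent.S56.H656.FlatOrdLineStatement := by
  intro 𝒪 _ _ _ _ _ p ρbar S Smin hyp P hP hred c ρ' _ hl _ hf
  haveI : Fact p.Prime := ⟨hyp.hp⟩
  have hpk : ((p : ℕ) : ResidueField 𝒪) = 0 := by
    have h := (IsLocalRing.residue_eq_zero_iff (p : 𝒪)).mpr hyp.hp𝒪
    rwa [map_natCast] at h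
  haveI : CharP (ResidueField 𝒪) p := (CharP.charP_iff_prime_eq_zero hyp.hp).mpr hpk
  exact flatOrdLine hyp.hp2 ρbar
    (fun _ _ h => Fermat.Agent.S56.FL.det_eq_natCast_of_isCycExp hyp.hdet h)
    P hP hred c ρ' hl hf

/-- **FLAT-O**: the reducible (ordinary) case of LOC-FLAT. -/
theorem flatO : Fermat.Agent.S56.FL.FlatOStatement :=
  Fermat.Agent.S56.H656.flatO_of flatOrdLineStatement Fermat.Agent.S56.H656.flatUnit
    Fermat.Agent.S56.H734.kum Fermat.Agent.S56.H486.unramHom

end Fermat.Agent.S56.FO.H6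

end
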