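import Fermat.Agent.S56.FO.H6.CharInt
import Fermat.Agent.S56.H906.FlatOSpec
import Fermat.Agent.S56.H656.LocOrdP
import Fermat.Agent.S56.P3.H254.Arith
import Fermat.Agent.A2.H708.Tame

/-!
# S56 / FLAT-O / leaf CE (helper6): kernel of reduction = augmentation

`(M, act, Λ)` a Hopf lattice over `ℤ_(p)`, `p` odd, `p • M = 0`, `P | p` a place of `ℚ̄`,
`I = P.inertiaSubgroupIn ℚ`.

* `ConnEtStatement` (CE): a point `x` with `v(f x - f 0) < 1` for all `f ∈ Λ` (a point of the
  kernel of reduction) lies in the subgroup generated by the `act σ y - y`, `σ ∈ I`.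
* `UnrVal1Statement` (VG1): an element of `ℚ̄` fixed by `I₁ = {σ ∈ I : σ ζ = ζ}` which is a
  non-unit has valuation `≤ v(ζ - 1)`.
* `connEt_of : UnrVal1Statement → ConnEtStatement`.

Plan and use in the FLAT-O assembly: `coord/S56-FLAT-O-CE-helper6.md` (origin/helper6).
No quotient of Hopf lattices, no Cartier duality: only CHAR-INT (`CharInt.lean`).
-/

set_option autoImplicit false
set_option linter.style.haveILetI false
set_option linter.unusedSectionVars false

noncomputable section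

namespace Fermat.Agent.S56.FO.H6

open Fermat.Agent.S56
open scoped BigOperators

/-- (VG1) a non-unit of `ℚ̄` fixed by `{σ ∈ I_P : σ ζ = ζ}` has valuation `≤ v(ζ - 1)`. -/
def UnrVal1Statement : Prop :=
  ∀ p : ℕ, p.Prime → ∀ P : ValuationSubring Qb, P.LiesOverPrime p →
    ∀ ζ : Qb, IsPrimitiveRoot ζ p → ∀ y : Qb,
      (∀ σ ∈ P.inertiaSubgroupIn ℚ, σ ζ = ζ → σ y = y) → P.valuation y < 1 →
      P.valuation y ≤ P.valuation (ζ - 1)

/-- (CE) the kernel of reduction of a Hopf lattice killed by `p` (`p` odd) is contained in the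
augmentation subgroup of inertia. -/
def ConnEtStatement : Prop :=
  ∀ (p : ℕ) [Fact p.Prime], p ≠ 2 →
    ∀ (M : Type) [AddCommGroup M] [Finite M] (act : GQ → M → M)
    (Λ : Subalgebra (H906.Zp p) (M → Qb)), H906.IsHL p act Λ → (∀ x : M, p • x = 0) →
    ∀ P : ValuationSubring Qb, P.LiesOverPrime p → ∀ x : M,
      (∀ f ∈ Λ, P.valuation (f x - f 0) < 1) →
      x ∈ AddSubgroup.closure
        {z : M | ∃ σ ∈ P.inertiaSubgroupIn ℚ, ∃ y : M, z = act σ y - y}

/-! ## Auxiliary lemmas -/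

/-- Elements of `ℤ_(p)` are `P`-integral for `P | p`. -/
theorem valuation_Zl_le_one {p : ℕ} (hp : p.Prime) (P : ValuationSubring Qb)
    (hP : P.LiesOverPrime p) (r : H906.Zp p) :
    P.valuation (algebraMap (H906.Zp p) Qb r) ≤ 1 := by
  have hden : (r : ℚ).den.Coprime p := r.2
  have hq : algebraMap (H906.Zp p) Qb r = algebraMap ℚ Qb (r : ℚ) := rfl
  have h1 : algebraMap ℚ Qb (r : ℚ) = ((r : ℚ).num : Qb) / (((r : ℚ).den : ℤ) : Qb) := by
    conv_lhs => rw [← Rat.num_div_den (r : ℚ)]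
    rw [map_div₀, map_intCast, map_natCast]
    push_cast
    rfl
  rw [hq, h1, map_div₀]
  have hnd : ¬ (p : ℤ) ∣ (((r : ℚ).den : ℕ) : ℤ) := by
    intro h
    have h2 : p ∣ (r : ℚ).den := by exact_mod_cast h
    have h3 := Nat.Coprime.eq_one_of_dvd hden.symm h2
    exact hp.one_lt.ne' h3
  rw [Fermat.Agent.S14.H894.valuation_intCast_eq_one P p hp hP _ hnd, div_one]
  exact Fermat.Agent.S14.H894.valuation_intCast_le_one P _

/-- Elements of `ℚ̄` integral over `ℤ_(p)` are `P`-integral for `P | p`. -/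
theorem valuation_le_one_of_isIntegral {p : ℕ} (hp : p.Prime) (P : ValuationSubring Qb)
    (hP : P.LiesOverPrime p) {c : Qb} (hc : IsIntegral (H906.Zp p) c) :
    P.valuation c ≤ 1 := by
  obtain ⟨f, hf, hfc⟩ := hc
  by_contra hlt
  rw [not_le] at hlt
  have hn : f.natDegree ≠ 0 := by
    intro hn
    have h1 : f = 1 := by
      have := Polynomial.eq_C_of_natDegree_eq_zero hn
      rw [this]
      have h2 : f.coeff 0 = 1 := by
        have := hf.coeff_natDegree
        rwa [hn] at this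
      rw [h2, map_one]
    rw [h1, Polynomial.eval₂_one] at hfc
    exact one_ne_zero hfc
  rw [Polynomial.eval₂_eq_sum_range, Finset.sum_range_succ, hf.coeff_natDegree, map_one,
    one_mul, add_eq_zero_iff_eq_neg] at hfc
  have h3 := congrArg P.valuation hfc
  rw [Valuation.map_neg, map_pow] at h3
  have h4 : P.valuation (∑ i ∈ Finset.range f.natDegree,
      algebraMap (H906.Zp p) Qb (f.coeff i) * c ^ i) < P.valuation c ^ f.natDegree := by
    refine P.valuation.map_sum_lt ?_ ?_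
    · exact pow_ne_zero _ (ne_of_gt (lt_trans zero_lt_one hlt))
    · intro i hi
      rw [Finset.mem_range] at hi
      rw [map_mul, map_pow]
      calc P.valuation (algebraMap (H906.Zp p) Qb (f.coeff i)) * P.valuation c ^ i
          ≤ 1 * P.valuation c ^ i :=
            mul_le_mul_of_nonneg_right (valuation_Zl_le_one hp P hP _) zero_le
        _ = P.valuation c ^ i := one_mul _
        _ < P.valuation c ^ f.natDegree := pow_lt_pow_right₀ hlt hi
  rw [h3] at h4
  exact lt_irrefl _ h4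

/-- A vector outside a subspace is detected by a linear form vanishing on the subspace. -/
theorem exists_dual_of_not_mem {p : ℕ} [Fact p.Prime] {M : Type*} [AddCommGroup M]
    [Module (ZMod p) M] (Z : Submodule (ZMod p) M) {x₀ : M} (hx : x₀ ∉ Z) :
    ∃ f : M →ₗ[ZMod p] ZMod p, f x₀ ≠ 0 ∧ ∀ z ∈ Z, f z = 0 := by
  obtain ⟨f, hf, hfZ⟩ : ∃ f : M →ₗ[ZMod p] ZMod p, f x₀ ≠ 0 ∧ Z.map f = ⊥ :=
    Submodule.exists_dual_map_eq_bot_of_notMem hx inferInstance
  refine ⟨f, hf, fun z hz => ?_⟩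
  have : f z ∈ Z.map f := ⟨z, hz, rfl⟩
  rw [hfZ] at this
  exact (Submodule.mem_bot _).mp this

/-- A point outside a subgroup of a group killed by `p` is detected by an additive character
with values in `ZMod p`. -/
theorem exists_addChar_of_not_mem {p : ℕ} [Fact p.Prime] {M : Type*} [AddCommGroup M]
    (hpM : ∀ x : M, p • x = 0) (Z : AddSubgroup M) {x₀ : M} (hx : x₀ ∉ Z) :
    ∃ ξ : M →+ ZMod p, (∀ z ∈ Z, ξ z = 0) ∧ ξ x₀ ≠ 0 := by
  letI : Module (ZMod p) M := AddCommGroup.zmodModule hpM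
  obtain ⟨f, hf, hfZ⟩ := exists_dual_of_not_mem (AddSubgroup.toZModSubmodule p Z) hx
  exact ⟨f.toAddMonoidHom, fun z hz => hfZ z hz, hf⟩

/-- The multiplicative character `m ↦ ζ ^ (ξ m).val`. -/
theorem zeta_pow_val_add {p : ℕ} [Fact p.Prime] {ζ : Qb} (hζ : ζ ^ p = 1) (a b : ZMod p) :
    ζ ^ (a + b).val = ζ ^ a.val * ζ ^ b.val := by
  rw [ZMod.val_add, ← pow_add]
  exact (pow_eq_pow_mod _ hζ).symm

/-! ## The theorem -/

/-- **(CE)** from (VG1). -/
theorem connEt_of (hV : UnrVal1Statement) : ConnEtStatement := by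
  intro p _ hp2 M _ _ act Λ hΛ hpM P hP x₀ hx₀
  classical
  have hp : p.Prime := Fact.out
  haveI : NeZero p := ⟨hp.ne_zero⟩
  by_contra hx
  set Z : AddSubgroup M := AddSubgroup.closure
    {z : M | ∃ σ ∈ P.inertiaSubgroupIn ℚ, ∃ y : M, z = act σ y - y} with hZ
  -- (1) the character
  obtain ⟨ξ, hξZ, hξx⟩ := exists_addChar_of_not_mem hpM Z hx
  obtain ⟨ζ, hζ⟩ := Fermat.Agent.S56.P3.H254.exists_primitiveRoot p
  have hζp : ζ ^ p = 1 := hζ.pow_eq_one
  set χ : M → Qb := fun m => ζ ^ (ξ m).val with hχdef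
  have hχ0 : χ 0 = 1 := by
    show ζ ^ (ξ 0).val = 1
    rw [map_zero, ZMod.val_zero, pow_zero]
  have hχadd : ∀ x y : M, χ (x + y) = χ x * χ y := by
    intro x y
    show ζ ^ (ξ (x + y)).val = _
    rw [map_add]
    exact zeta_pow_val_add hζp _ _
  have hχp : ∀ m : M, χ m ^ p = 1 := by
    intro m
    show (ζ ^ (ξ m).val) ^ p = 1
    rw [← pow_mul, mul_comm, pow_mul, hζp, one_pow]
  -- `χ` is invariant under inertia translations
  have hχact : ∀ σ ∈ P.inertiaSubgroupIn ℚ, ∀ m : M, χ (act σ m) = χ m := by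
    intro σ hσ m
    have h1 : act σ m - m ∈ Z := AddSubgroup.subset_closure ⟨σ, hσ, m, rfl⟩
    have h2 : ξ (act σ m) = ξ m := by
      have := hξZ _ h1
      rw [map_sub, sub_eq_zero] at this
      exact this
    show ζ ^ (ξ (act σ m)).val = ζ ^ (ξ m).val
    rw [h2]
  -- (3) the basis and the coefficients
  obtain ⟨n, e, he, -, hliQ, hexp⟩ := Fermat.Agent.S19.H435.IsHopfLattice.exists_basis hΛ
  have hli := Fintype.linearIndependent_iff.mp hliQ
  obtain ⟨c, hcint, hc⟩ := isIntegral_coeff_of_character hΛ e he hliQ hexp χ hχ0 hχadd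
  have hχc : ∀ m : M, χ m = ∑ i, c i * e i m := by
    intro m
    rw [hc, sum_Qb_smul_apply]
  -- the inverse character
  set χ' : M → Qb := fun m => χ m ^ (p - 1) with hχ'def
  have hχ'0 : χ' 0 = 1 := by
    show χ 0 ^ (p - 1) = 1
    rw [hχ0, one_pow]
  have hχ'add : ∀ x y : M, χ' (x + y) = χ' x * χ' y := by
    intro x y
    show χ (x + y) ^ (p - 1) = χ x ^ (p - 1) * χ y ^ (p - 1)
    rw [hχadd, mul_pow]
  obtain ⟨c', hc'int, hc'⟩ := isIntegral_coeff_of_character hΛ e he hliQ hexp χ' hχ'0 hχ'add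
  have hχ'c : ∀ m : M, χ' m = ∑ i, c' i * e i m := by
    intro m
    rw [hc', sum_Qb_smul_apply]
  -- the unit function and the structure constants
  obtain ⟨u, hu⟩ := hexp 1 Λ.one_mem
  have hu1 : ∀ m : M, (1 : Qb) = ∑ k, algebraMap (H906.Zp p) Qb (u k) * e k m := by
    intro m
    have := congrFun hu m
    rw [sum_Zl_smul_apply] at this
    exact this
  choose s hs using fun i j => hexp (e i * e j) (Λ.mul_mem (he i) (he j))
  have hs' : ∀ (i j : Fin n) (m : M),
      e i m * e j m = ∑ k, algebraMap (H906.Zp p) Qb (s i j k) * e k m := by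
    intro i j m
    have := congrFun (hs i j) m
    rw [sum_Zl_smul_apply] at this
    exact this
  -- (5) twisting
  have htw : ∀ σ ∈ P.inertiaSubgroupIn ℚ, ∀ a : ℕ, σ ζ = ζ ^ a →
      ∀ m : M, ∑ i, σ (c i) * e i m = χ m ^ a := by
    intro σ hσ a ha m
    have hσi : σ⁻¹ ∈ P.inertiaSubgroupIn ℚ := Subgroup.inv_mem _ hσ
    have h1 : χ (act σ⁻¹ m) = ∑ i, c i * σ⁻¹ (e i m) := by
      rw [hχc]
      refine Finset.sum_congr rfl fun i _ => ?_
      rw [hΛ.equivariant _ (he i) σ⁻¹ m]
    have h2 := congrArg σ h1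
    rw [map_sum, hχact σ⁻¹ hσi m] at h2
    have h3 : ∀ i, σ (c i * σ⁻¹ (e i m)) = σ (c i) * e i m := by
      intro i
      rw [map_mul]
      congr 1
      exact AlgEquiv.apply_symm_apply σ (e i m)
    rw [Finset.sum_congr rfl fun i _ => h3 i] at h2
    rw [← h2]
    show σ (ζ ^ (ξ m).val) = (ζ ^ (ξ m).val) ^ a
    rw [map_pow, ha, ← pow_mul, ← pow_mul, mul_comm]
  -- (4) an inertia element acting by `ζ ↦ ζ²`
  have h2p : Nat.Coprime 2 p := by
    rw [Nat.coprime_comm]
    exact (Nat.coprime_primes hp Nat.prime_two).mpr hp2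
  obtain ⟨g, hg⟩ := Fermat.Agent.S56.P3.H254.exists_apply_eq_pow hζ (ZMod.unitOfCoprime 2 h2p)
  have hval2 : ((ZMod.unitOfCoprime 2 h2p : (ZMod p)ˣ) : ZMod p).val = 2 := by
    rw [ZMod.coe_unitOfCoprime, ZMod.val_natCast]
    refine Nat.mod_eq_of_lt ?_
    have := hp.two_le
    omega
  rw [hval2] at hg
  obtain ⟨τ, hτ, hτζ⟩ := Fermat.Agent.S56.H656.exists_inertia_apply_eq hp P hP hζ g
  rw [hg] at hτζ
  -- valuations of the coefficients
  have hvc : ∀ i, P.valuation (c i) ≤ 1 := fun i => valuation_le_one_of_isIntegral hp P hP (hcint i)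
  have hvc' : ∀ i, P.valuation (c' i) ≤ 1 :=
    fun i => valuation_le_one_of_isIntegral hp P hP (hc'int i)
  set t : Fin n → Qb := fun j => τ (c j) - c j with ht
  have hvt : ∀ j, P.valuation (t j) < 1 := fun j =>
    Fermat.Agent.A2.H708.valuation_sub_lt_one_of_mem_inertiaIn P hτ (hvc j)
  -- (6a) `c k - u k = D k`
  set D : Fin n → Qb := fun k => ∑ i, ∑ j, c' i * t j * algebraMap (H906.Zp p) Qb (s i j k)
    with hD
  have hcu : ∀ k, c k - algebraMap (H906.Zp p) Qb (u k) = D k := by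
    intro k
    have h0 : ∑ k, (c k - algebraMap (H906.Zp p) Qb (u k) - D k) • e k = 0 := by
      funext m
      rw [sum_Qb_smul_apply, Pi.zero_apply]
      simp only [sub_mul, Finset.sum_sub_distrib]
      rw [← hχc m, ← hu1 m]
      -- `χ m - 1 = χ' m * (χ m ^ 2 - χ m)`
      have h1 : χ m - 1 = χ' m * (χ m ^ 2 - χ m) := by
        show χ m - 1 = χ m ^ (p - 1) * (χ m ^ 2 - χ m)
        have hpp : χ m ^ (p - 1) * χ m = 1 := by
          rw [← pow_succ, Nat.sub_add_cancel hp.one_le, hχp]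
        calc χ m - 1 = (χ m ^ (p - 1) * χ m) * χ m - χ m ^ (p - 1) * χ m := by
              rw [hpp, one_mul]
          _ = χ m ^ (p - 1) * (χ m ^ 2 - χ m) := by ring
      have h2 : χ m ^ 2 - χ m = ∑ j, t j * e j m := by
        rw [← htw τ hτ 2 hτζ m, hχc m, ← Finset.sum_sub_distrib]
        refine Finset.sum_congr rfl fun j _ => ?_
        rw [ht]
        ring
      have h3 : ∑ k, D k * e k m = χ' m * (χ m ^ 2 - χ m) := by
        rw [h2, hχ'c m, Finset.sum_mul_sum]
        have h4 : ∀ i j, c' i * e i m * (t j * e j m) =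
            ∑ k, c' i * t j * algebraMap (H906.Zp p) Qb (s i j k) * e k m := by
          intro i j
          have : c' i * e i m * (t j * e j m) = c' i * t j * (e i m * e j m) := by ring
          rw [this, hs' i j m, Finset.mul_sum]
          refine Finset.sum_congr rfl fun k _ => ?_
          ring
        simp_rw [h4]
        rw [hD]
        simp only [Finset.sum_mul]
        rw [Finset.sum_comm]
        refine Finset.sum_congr rfl fun i _ => ?_
        rw [Finset.sum_comm]
      rw [h3, h1, sub_self]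
    exact sub_eq_zero.mp (hli _ h0 k)
  have hvD : ∀ k, P.valuation (D k) < 1 := by
    intro k
    refine P.valuation.map_sum_lt one_ne_zero fun i _ => ?_
    refine P.valuation.map_sum_lt one_ne_zero fun j _ => ?_
    rw [map_mul, map_mul]
    calc P.valuation (c' i) * P.valuation (t j) *
          P.valuation (algebraMap (H906.Zp p) Qb (s i j k))
        ≤ 1 * P.valuation (t j) * 1 := by
          gcongr
          · exact hvc' i
          · exact valuation_Zl_le_one hp P hP _
      _ = P.valuation (t j) := by rw [one_mul, mul_one]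
      _ < 1 := hvt j
  -- (6b) the coefficients are fixed by `I₁`
  have hfix : ∀ σ ∈ P.inertiaSubgroupIn ℚ, σ ζ = ζ → ∀ k, σ (D k) = D k := by
    intro σ hσ hσζ k
    have hck : σ (c k) = c k := by
      have h0 : ∑ i, (σ (c i) - c i) • e i = 0 := by
        funext m
        rw [sum_Qb_smul_apply, Pi.zero_apply]
        simp only [sub_mul, Finset.sum_sub_distrib]
        rw [htw σ hσ 1 (by rw [pow_one]; exact hσζ) m, pow_one, ← hχc m, sub_self]
      exact sub_eq_zero.mp (hli _ h0 k)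
    rw [← hcu k, map_sub, hck]
    congr 1
    exact σ.commutes ((u k : ℚ))
  -- (VG1)
  have hvD' : ∀ k, P.valuation (D k) ≤ P.valuation (ζ - 1) := fun k =>
    hV p hp P hP ζ hζ (D k) (fun σ hσ hσζ => hfix σ hσ hσζ k) (hvD k)
  -- (7) the value at `x₀`
  have hval : χ x₀ - 1 = ∑ k, D k * (e k x₀ - e k 0) := by
    have h1 : χ x₀ - 1 = ∑ k, c k * (e k x₀ - e k 0) := by
      rw [← hχ0, hχc x₀, hχc 0, ← Finset.sum_sub_distrib]
      refine Finset.sum_congr rfl fun k _ => ?_
      ring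
    have h2 : ∑ k, algebraMap (H906.Zp p) Qb (u k) * (e k x₀ - e k 0) = 0 := by
      simp only [mul_sub, Finset.sum_sub_distrib]
      rw [← hu1 x₀, ← hu1 0, sub_self]
    rw [h1, ← sub_zero (∑ k, c k * (e k x₀ - e k 0)), ← h2, ← Finset.sum_sub_distrib]
    refine Finset.sum_congr rfl fun k _ => ?_
    rw [← hcu k]
    ring
  have hπ0 : P.valuation (ζ - 1) ≠ 0 :=
    Fermat.Agent.S14.H894.valuation_zeta_sub_one_ne_zero P p hp ζ hζ
  have hlt : P.valuation (χ x₀ - 1) < P.valuation (ζ - 1) := by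
    rw [hval]
    refine P.valuation.map_sum_lt hπ0 fun k _ => ?_
    rw [map_mul]
    calc P.valuation (D k) * P.valuation (e k x₀ - e k 0)
        ≤ P.valuation (ζ - 1) * P.valuation (e k x₀ - e k 0) :=
          mul_le_mul_of_nonneg_right (hvD' k) zero_le
      _ < P.valuation (ζ - 1) * 1 :=
          mul_lt_mul_of_pos_left (hx₀ _ (he k)) (zero_lt_iff.mpr hπ0)
      _ = P.valuation (ζ - 1) := mul_one _
  -- (8) `χ x₀` is a primitive `p`-th root of unity
  have hk0 : (ξ x₀).val ≠ 0 := by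
    intro h
    exact hξx ((ZMod.val_eq_zero _).mp h)
  have hcop : (ξ x₀).val.Coprime p := by
    rw [Nat.coprime_comm, hp.coprime_iff_not_dvd]
    intro hdvd
    have h1 := Nat.le_of_dvd (Nat.pos_of_ne_zero hk0) hdvd
    exact absurd (ZMod.val_lt (ξ x₀)) (not_lt.mpr h1)
  have hprim : IsPrimitiveRoot (χ x₀) p := hζ.pow_of_coprime _ hcop
  have heq := Fermat.Agent.S14.H894.valuation_sub_one_eq_of_mem_primitiveRoots P p hp ζ hζ
    ((mem_primitiveRoots hp.pos).mpr hprim)
  rw [heq] at hlt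
  exact lt_irrefl _ hlt

end Fermat.Agent.S56.FO.H6
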