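import Fermat.Agent.S56.FO.H6.CE
import Fermat.Agent.S56.H66.VGArch
import Fermat.Agent.S56.H906.FI
import Fermat.Agent.S19.H435.Sub

/-!
# S56 / FLAT-O / leaf CE, unconditional form (helper6)

* `unrVal1 : UnrVal1Statement` (VG1), from the landed `Fermat.Agent.S56.H66.vg1_le` (helper66).
* `connEt : ConnEtStatement` (CE): kernel of reduction `⊆` inertia augmentation.
* `redKer_eq_closure`: for `p` odd and `p • M = 0`, the kernel of reduction `H906.redKer` of a
  Hopf lattice IS the subgroup generated by the `act σ y - y`, `σ ∈ I_P`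
  (`⊇` is `H906.closure_le_redKer` of helper906).
* `inf_closure_le`: for a `G_ℚ`-stable subgroup `E ≤ M`,
  `I_aug M ∩ E ≤ I_aug E` — the step of the FLAT-O assembly which needs CE
  (kills the lower-left class; see `coord/S56-FLAT-O-CE-helper6.md`, §3, S2).
-/

set_option autoImplicit false
set_option linter.style.haveILetI false
set_option linter.unusedSectionVars false

noncomputable section

namespace Fermat.Agent.S56.FO.H6

open Fermat.Agent.S56

/-- (VG1), from helper66's landed `vg1_le`. -/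
theorem unrVal1 : UnrVal1Statement := fun p hp P hP ζ hζ y hfix hy =>
  Fermat.Agent.S56.H66.vg1_le P p hp hP ζ hζ y ((P.mem_nonunits_iff).mpr hy) hfix

/-- **(CE)**, unconditional. -/
theorem connEt : ConnEtStatement := connEt_of unrVal1

/-- The kernel of reduction of a Hopf lattice killed by `p` (`p` odd) is the augmentation
subgroup of inertia. -/
theorem redKer_eq_closure {p : ℕ} [Fact p.Prime] (hp2 : p ≠ 2) {M : Type} [AddCommGroup M]
    [Finite M] {act : GQ → M → M} {Λ : Subalgebra (H906.Zp p) (M → Qb)}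
    (hΛ : H906.IsHL p act Λ) (hpM : ∀ x : M, p • x = 0) (P : ValuationSubring Qb)
    (hP : P.LiesOverPrime p) :
    H906.redKer P hΛ hP =
      AddSubgroup.closure {z : M | ∃ σ ∈ P.inertiaSubgroupIn ℚ, ∃ y : M, z = act σ y - y} := by
  refine le_antisymm ?_ (H906.closure_le_redKer P hΛ hP)
  intro x hx
  exact connEt p hp2 M act Λ hΛ hpM P hP x ((H906.mem_redKer P hΛ hP x).mp hx)

/-- **Relative CE.**  For a `G_ℚ`-stable subgroup `E ≤ M` of a Hopf lattice killed by `p`
(`p` odd): a point of `E` in the inertia augmentation of `M` lies in the inertia augmentation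
of `E`.  (`I_aug M ∩ E = I_aug E`.) -/
theorem mem_closure_of_mem_closure {p : ℕ} [Fact p.Prime] (hp2 : p ≠ 2) {M : Type}
    [AddCommGroup M] [Finite M] {act : GQ → M → M} {Λ : Subalgebra (H906.Zp p) (M → Qb)}
    (hΛ : H906.IsHL p act Λ) (hpM : ∀ x : M, p • x = 0) (P : ValuationSubring Qb)
    (hP : P.LiesOverPrime p) (E : AddSubgroup M) (hE : ∀ (σ : GQ), ∀ x ∈ E, act σ x ∈ E)
    {x : M} (hxE : x ∈ E)
    (hx : x ∈ AddSubgroup.closure
      {z : M | ∃ σ ∈ P.inertiaSubgroupIn ℚ, ∃ y : M, z = act σ y - y}) :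
    x ∈ AddSubgroup.closure
      {z : M | ∃ σ ∈ P.inertiaSubgroupIn ℚ, ∃ y ∈ E, z = act σ y - y} := by
  -- the pullback lattice on `E`
  set actE : GQ → E → E := fun σ y => ⟨act σ y, hE σ y y.2⟩ with hactE
  have hΛE := Fermat.Agent.S19.H435.IsHopfLattice.pullback hΛ E.subtype
    Subtype.val_injective actE (fun σ y => rfl)
  have hpE : ∀ y : E, p • y = 0 := fun y => Subtype.ext (by
    rw [AddSubgroup.coe_nsmul, hpM]
    rfl)
  have hred : ∀ f ∈ Λ.map (Fermat.Agent.S19.H435.precompAlgHom p E.subtype),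
      P.valuation (f ⟨x, hxE⟩ - f 0) < 1 := by
    rintro _ ⟨f, hf, rfl⟩
    exact H906.closure_le_redKer P hΛ hP hx f hf
  have h1 := connEt p hp2 E actE _ hΛE hpE P hP ⟨x, hxE⟩ hred
  -- push forward to `M`
  have h2 : ∀ y : E, y ∈ AddSubgroup.closure
      {z : E | ∃ σ ∈ P.inertiaSubgroupIn ℚ, ∃ y : E, z = actE σ y - y} →
      (y : M) ∈ AddSubgroup.closure
        {z : M | ∃ σ ∈ P.inertiaSubgroupIn ℚ, ∃ y ∈ E, z = act σ y - y} := by
    intro y hy
    induction hy using AddSubgroup.closure_induction with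
    | mem z hz =>
      obtain ⟨σ, hσ, w, rfl⟩ := hz
      exact AddSubgroup.subset_closure ⟨σ, hσ, w, w.2, rfl⟩
    | zero => exact AddSubgroup.zero_mem _
    | add a b _ _ ha hb => exact AddSubgroup.add_mem _ ha hb
    | neg a _ ha => exact AddSubgroup.neg_mem _ ha
  exact h2 ⟨x, hxE⟩ h1

end Fermat.Agent.S56.FO.H6
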