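import Fermat.Agent.S56.FO.H6.CEMain

/-!
# Theorem CE for a `p`-torsion subgroup of a Hopf lattice of any order (helper6)

`(M, act, Λ)` a Hopf lattice over `ℤ_(p)` (`M` finite, NO hypothesis on the order of `M`),
`p` odd, `P | p`, `I = P.inertiaSubgroupIn ℚ`, `E ≤ M` a `G_ℚ`-stable subgroup killed by `p`.

* `connEt_sub` (CE⁺): a point of `E` in the kernel of reduction of `M` lies in the subgroup
  generated by the `act σ y - y`, `σ ∈ I`, `y ∈ E`.          (`E ∩ M⁰ ≤ I_aug E`)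
* `mem_closure_sub_of_mem_closure`: `E ∩ I_aug M ≤ I_aug E`.
* `redKer_inf_eq_closure`: `E ∩ M⁰ = I_aug E` as sets.

Proof: the restriction of `Λ` to `E` is a Hopf lattice killed by `p`; apply `connEt`.
-/

set_option autoImplicit false
set_option linter.style.haveILetI false
set_option linter.unusedSectionVars false

noncomputable section

namespace Fermat.Agent.S56.FO.H6

open Fermat.Agent.S56

/-- **(CE⁺)** For a `G_ℚ`-stable subgroup `E`, killed by `p` (`p` odd), of a Hopf lattice `M`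
of any order: a point of `E` which reduces to `0` lies in the inertia augmentation of `E`. -/
theorem connEt_sub {p : ℕ} [Fact p.Prime] (hp2 : p ≠ 2) {M : Type}
    [AddCommGroup M] [Finite M] {act : GQ → M → M} {Λ : Subalgebra (H906.Zp p) (M → Qb)}
    (hΛ : H906.IsHL p act Λ) (P : ValuationSubring Qb)
    (hP : P.LiesOverPrime p) (E : AddSubgroup M) (hE : ∀ (σ : GQ), ∀ x ∈ E, act σ x ∈ E)
    (hpE : ∀ x ∈ E, p • x = 0) {x : M} (hxE : x ∈ E)
    (hx : ∀ f ∈ Λ, P.valuation (f x - f 0) < 1) :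
    x ∈ AddSubgroup.closure
      {z : M | ∃ σ ∈ P.inertiaSubgroupIn ℚ, ∃ y ∈ E, z = act σ y - y} := by
  -- the pullback lattice on `E`
  set actE : GQ → E → E := fun σ y => ⟨act σ y, hE σ y y.2⟩ with hactE
  have hΛE := Fermat.Agent.S19.H435.IsHopfLattice.pullback hΛ E.subtype
    Subtype.val_injective actE (fun σ y => rfl)
  have hpE' : ∀ y : E, p • y = 0 := fun y => Subtype.ext (by
    rw [AddSubgroup.coe_nsmul, hpE y y.2]
    rfl)
  have hred : ∀ f ∈ Λ.map (Fermat.Agent.S19.H435.precompAlgHom p E.subtype),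
      P.valuation (f ⟨x, hxE⟩ - f 0) < 1 := by
    rintro _ ⟨f, hf, rfl⟩
    exact hx f hf
  have h1 := connEt p hp2 E actE _ hΛE hpE' P hP ⟨x, hxE⟩ hred
  -- push forward to `M`
  have h2 : ∀ y : E, y ∈ AddSubgroup.closure
      {z : E | ∃ σ ∈ P.inertiaSubgroupIn ℚ, ∃ y : E, z = actE σ y - y} →
      (y : M) ∈ AddSubgroup.closure
        {z : M | ∃ σ ∈ P.inertiaSubgroupIn ℚ, ∃ y ∈ E, z = act σ y - y} := by
    intro y hy
    induction hy using AddSubgroup.closure_induction with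
    | mem z hz =>
      obtain ⟨σ, hσ, w, rfl⟩ := hz
      exact AddSubgroup.subset_closure ⟨σ, hσ, w, w.2, rfl⟩
    | zero => exact AddSubgroup.zero_mem _
    | add a b _ _ ha hb => exact AddSubgroup.add_mem _ ha hb
    | neg a _ ha => exact AddSubgroup.neg_mem _ ha
  exact h2 ⟨x, hxE⟩ h1

/-- `E ∩ I_aug M ≤ I_aug E` for a `G_ℚ`-stable subgroup `E` killed by `p` of a Hopf lattice
`M` of any order. -/
theorem mem_closure_sub_of_mem_closure {p : ℕ} [Fact p.Prime] (hp2 : p ≠ 2) {M : Type}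
    [AddCommGroup M] [Finite M] {act : GQ → M → M} {Λ : Subalgebra (H906.Zp p) (M → Qb)}
    (hΛ : H906.IsHL p act Λ) (P : ValuationSubring Qb)
    (hP : P.LiesOverPrime p) (E : AddSubgroup M) (hE : ∀ (σ : GQ), ∀ x ∈ E, act σ x ∈ E)
    (hpE : ∀ x ∈ E, p • x = 0) {x : M} (hxE : x ∈ E)
    (hx : x ∈ AddSubgroup.closure
      {z : M | ∃ σ ∈ P.inertiaSubgroupIn ℚ, ∃ y : M, z = act σ y - y}) :
    x ∈ AddSubgroup.closure
      {z : M | ∃ σ ∈ P.inertiaSubgroupIn ℚ, ∃ y ∈ E, z = act σ y - y} :=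
  connEt_sub hp2 hΛ P hP E hE hpE hxE
    (fun f hf => H906.closure_le_redKer P hΛ hP hx f hf)

/-- `E ∩ M⁰ = I_aug E`: for a `G_ℚ`-stable subgroup `E` killed by `p` (`p` odd) of a Hopf
lattice `M` of any order, the points of `E` in the kernel of reduction of `M` are exactly the
elements of the inertia augmentation of `E`. -/
theorem mem_redKer_sub_iff {p : ℕ} [Fact p.Prime] (hp2 : p ≠ 2) {M : Type}
    [AddCommGroup M] [Finite M] {act : GQ → M → M} {Λ : Subalgebra (H906.Zp p) (M → Qb)}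
    (hΛ : H906.IsHL p act Λ) (P : ValuationSubring Qb)
    (hP : P.LiesOverPrime p) (E : AddSubgroup M) (hE : ∀ (σ : GQ), ∀ x ∈ E, act σ x ∈ E)
    (hpE : ∀ x ∈ E, p • x = 0) (x : M) :
    (x ∈ E ∧ ∀ f ∈ Λ, P.valuation (f x - f 0) < 1) ↔
      x ∈ AddSubgroup.closure
        {z : M | ∃ σ ∈ P.inertiaSubgroupIn ℚ, ∃ y ∈ E, z = act σ y - y} := by
  constructor
  · rintro ⟨hxE, hx⟩
    exact connEt_sub hp2 hΛ P hP E hE hpE hxE hx
  · intro hx
    have hle : AddSubgroup.closure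
        {z : M | ∃ σ ∈ P.inertiaSubgroupIn ℚ, ∃ y ∈ E, z = act σ y - y} ≤
        AddSubgroup.closure
          {z : M | ∃ σ ∈ P.inertiaSubgroupIn ℚ, ∃ y : M, z = act σ y - y} :=
      AddSubgroup.closure_mono (fun z ⟨σ, hσ, y, _, hz⟩ => ⟨σ, hσ, y, hz⟩)
    have hleE : AddSubgroup.closure
        {z : M | ∃ σ ∈ P.inertiaSubgroupIn ℚ, ∃ y ∈ E, z = act σ y - y} ≤ E := by
      rw [AddSubgroup.closure_le]
      rintro z ⟨σ, -, y, hy, rfl⟩
      exact E.sub_mem (hE σ y hy) hy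
    exact ⟨hleE hx, fun f hf => H906.closure_le_redKer P hΛ hP (hle hx) f hf⟩

end Fermat.Agent.S56.FO.H6

end
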