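import Fermat.Agent.S19.H435.Lattice

/-!
# S56 / FLAT-O / CHAR-INT (helper6): characters are integral combinations of a Hopf lattice

`Λ` a Hopf lattice (cell A3, `Fermat.Agent.S19.H435.IsHopfLattice`) on a finite abelian group `M`.

* `span_Qb_eq_top`: the `ℚ̄`-span of `Λ` is the space of all functions `M → ℚ̄` (a separating
  subalgebra of functions on a finite set).
* `isIntegral_coeff_of_character`: if `χ : M → ℚ̄` is multiplicative (`χ 0 = 1`,
  `χ (x + y) = χ x * χ y`) and `e` is a basis of `Λ` as in `IsHopfLattice.exists_basis`, then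
  `χ = ∑ c i • e i` with all `c i` INTEGRAL over `ℤ_(ℓ)`.

Proof of integrality: if `e j (x + y) = ∑ γ j i k * e i x * e k y` (`γ ∈ ℤ_(ℓ)`), multiplicativity
of `χ` gives `c i * c k = ∑ j, γ j i k * c j`; so every `c i` stabilises the finitely generated
`ℤ_(ℓ)`-module `∑ ℤ_(ℓ) c j ≠ 0`.  (No dual Hopf algebra, no group algebra.)
-/

set_option autoImplicit false
set_option linter.style.haveILetI false
set_option linter.unusedSectionVars false

noncomputable section

namespace Fermat.Agent.S56.FO.H6

open Fermat.Agent.S19.H435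
open scoped BigOperators

variable {ℓ : ℕ} {M : Type*} [AddCommGroup M] {act : Gal → M → M}
  {Λ : Subalgebra (Zl ℓ) (M → Qb)}

/-- The `ℚ̄`-span of a separating `ℤ_(ℓ)`-subalgebra of functions on a finite set is everything. -/
theorem span_Qb_eq_top [Finite M] (hsep : ∀ m n : M, m ≠ n → ∃ f ∈ Λ, f m ≠ f n) :
    Submodule.span Qb (Λ : Set (M → Qb)) = ⊤ := by
  classical
  haveI : Fintype M := Fintype.ofFinite M
  set A : Subalgebra Qb (M → Qb) := Algebra.adjoin Qb (Λ : Set (M → Qb)) with hA
  have hδ : ∀ m : M, (Pi.single m (1 : Qb) : M → Qb) ∈ A := by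
    intro m
    have hex : ∀ n : M, ∃ g ∈ A, g m = 1 ∧ (n ≠ m → g n = 0) := by
      intro n
      by_cases h : n = m
      · exact ⟨1, A.one_mem, rfl, fun h' => absurd h h'⟩
      · obtain ⟨f, hf, hne⟩ := hsep m n (Ne.symm h)
        have hne' : f m - f n ≠ 0 := sub_ne_zero.mpr hne
        refine ⟨(f m - f n)⁻¹ • (f - algebraMap Qb (M → Qb) (f n)), ?_, ?_, ?_⟩
        · exact A.smul_mem (A.sub_mem (Algebra.subset_adjoin hf) (A.algebraMap_mem _)) _
        · show (f m - f n)⁻¹ * (f m - f n) = 1
          exact inv_mul_cancel₀ hne'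
        · intro _
          show (f m - f n)⁻¹ * (f n - f n) = 0
          rw [sub_self, mul_zero]
    choose g hgA hgm hgn using hex
    have hprod : (Pi.single m (1 : Qb) : M → Qb) = ∏ n, g n := by
      funext x
      rw [Finset.prod_apply]
      by_cases hx : x = m
      · subst hx
        rw [Pi.single_eq_same]
        exact (Finset.prod_eq_one fun n _ => hgm n).symm
      · rw [Pi.single_eq_of_ne hx]
        exact (Finset.prod_eq_zero (f := fun c => g c x) (Finset.mem_univ x) (hgn x hx)).symm
    rw [hprod]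
    exact A.prod_mem fun n _ => hgA n
  have hAtop : ∀ F : M → Qb, F ∈ A := by
    intro F
    have hF : F = ∑ m, F m • (Pi.single m (1 : Qb) : M → Qb) := by
      funext x
      rw [Finset.sum_apply, Finset.sum_eq_single x]
      · simp
      · intro b _ hb
        simp [Pi.single_eq_of_ne (Ne.symm hb)]
      · intro h
        exact absurd (Finset.mem_univ x) h
    rw [hF]
    exact A.sum_mem fun m _ => A.smul_mem (hδ m) _
  have hspan : Subalgebra.toSubmodule A = Submodule.span Qb (Λ : Set (M → Qb)) := by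
    rw [hA, Algebra.adjoin_eq_span]
    congr 1
    exact congrArg SetLike.coe (Submonoid.closure_eq Λ.toSubmonoid)
  rw [eq_top_iff]
  intro F _
  rw [← hspan]
  exact hAtop F

/-- Every function is a `ℚ̄`-combination of a basis of a Hopf lattice. -/
theorem exists_coeff_of_basis [Finite M] (hsep : ∀ m n : M, m ≠ n → ∃ f ∈ Λ, f m ≠ f n)
    {n : ℕ} (e : Fin n → M → Qb)
    (hexp : ∀ f ∈ Λ, ∃ c : Fin n → Zl ℓ, f = ∑ i, c i • e i) (F : M → Qb) :
    ∃ c : Fin n → Qb, F = ∑ i, c i • e i := by
  have h1 : F ∈ Submodule.span Qb (Λ : Set (M → Qb)) := by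
    rw [span_Qb_eq_top hsep]
    exact Submodule.mem_top
  have h2 : Submodule.span Qb (Λ : Set (M → Qb)) ≤ Submodule.span Qb (Set.range e) := by
    rw [Submodule.span_le]
    intro f hf
    obtain ⟨c, rfl⟩ := hexp f hf
    refine Submodule.sum_mem _ fun i _ => ?_
    have : c i • e i = (algebraMap (Zl ℓ) Qb (c i)) • e i := (algebraMap_smul Qb (c i) (e i)).symm
    rw [this]
    exact Submodule.smul_mem _ _ (Submodule.subset_span ⟨i, rfl⟩)
  obtain ⟨c, hc⟩ := (Submodule.mem_span_range_iff_exists_fun Qb).mp (h2 h1)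
  exact ⟨c, hc.symm⟩

/-- Pointwise form of an expansion with `ℤ_(ℓ)`-coefficients. -/
theorem sum_Zl_smul_apply {n : ℕ} (c : Fin n → Zl ℓ) (e : Fin n → M → Qb) (x : M) :
    (∑ i, c i • e i) x = ∑ i, algebraMap (Zl ℓ) Qb (c i) * e i x := by
  rw [Finset.sum_apply]
  refine Finset.sum_congr rfl fun i _ => ?_
  show c i • e i x = _
  rw [Algebra.smul_def]

/-- Pointwise form of an expansion with `ℚ̄`-coefficients. -/
theorem sum_Qb_smul_apply {n : ℕ} (c : Fin n → Qb) (e : Fin n → M → Qb) (x : M) :
    (∑ i, c i • e i) x = ∑ i, c i * e i x := by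
  rw [Finset.sum_apply]
  rfl

/-- Comultiplication constants of a Hopf lattice in a basis. -/
theorem exists_comul_constants (hΛ : IsHopfLattice ℓ act Λ) {n : ℕ} (e : Fin n → M → Qb)
    (he : ∀ i, e i ∈ Λ) (hexp : ∀ f ∈ Λ, ∃ c : Fin n → Zl ℓ, f = ∑ i, c i • e i) :
    ∃ γ : Fin n → Fin n → Fin n → Zl ℓ, ∀ (j : Fin n) (x y : M),
      e j (x + y) = ∑ i, ∑ k, algebraMap (Zl ℓ) Qb (γ j i k) * (e i x * e k y) := by
  have key : ∀ j : Fin n, ∃ γ : Fin n → Fin n → Zl ℓ, ∀ x y : M,
      e j (x + y) = ∑ i, ∑ k, algebraMap (Zl ℓ) Qb (γ i k) * (e i x * e k y) := by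
    intro j
    obtain ⟨N, a, b, ha, hb, hab⟩ := hΛ.comul_mem (e j) (he j)
    choose α hα using fun t => hexp (a t) (ha t)
    choose β hβ using fun t => hexp (b t) (hb t)
    refine ⟨fun i k => ∑ t, α t i * β t k, fun x y => ?_⟩
    rw [hab x y]
    have h1 : ∀ t, a t x * b t y =
        ∑ i, ∑ k, algebraMap (Zl ℓ) Qb (α t i * β t k) * (e i x * e k y) := by
      intro t
      rw [hα t, hβ t, sum_Zl_smul_apply, sum_Zl_smul_apply, Finset.sum_mul_sum]
      refine Finset.sum_congr rfl fun i _ => Finset.sum_congr rfl fun k _ => ?_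
      rw [map_mul]
      ring
    simp_rw [h1]
    rw [Finset.sum_comm]
    refine Finset.sum_congr rfl fun i _ => ?_
    rw [Finset.sum_comm]
    refine Finset.sum_congr rfl fun k _ => ?_
    rw [map_sum, Finset.sum_mul]
  choose γ hγ using key
  exact ⟨γ, hγ⟩

/-- `ℚ̄`-linear independence of the products `e i x * e k y`. -/
theorem eq_zero_of_sum_mul_eq_zero {n : ℕ} (e : Fin n → M → Qb) (hli : LinearIndependent Qb e)
    (w : Fin n → Fin n → Qb) (h : ∀ x y : M, ∑ i, ∑ k, w i k * (e i x * e k y) = 0) :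
    ∀ i k, w i k = 0 := by
  have hli' := Fintype.linearIndependent_iff.mp hli
  have h1 : ∀ (y : M) (i : Fin n), ∑ k, w i k * e k y = 0 := by
    intro y
    apply hli'
    funext x
    rw [sum_Qb_smul_apply, Pi.zero_apply, ← h x y]
    refine Finset.sum_congr rfl fun i _ => ?_
    rw [Finset.sum_mul]
    refine Finset.sum_congr rfl fun k _ => ?_
    ring
  intro i
  apply hli'
  funext y
  rw [sum_Qb_smul_apply, Pi.zero_apply]
  exact h1 y i

/-- **CHAR-INT.**  A multiplicative function on `M` is an INTEGRAL combination of any basis of a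
Hopf lattice. -/
theorem isIntegral_coeff_of_character [Finite M] (hΛ : IsHopfLattice ℓ act Λ)
    {n : ℕ} (e : Fin n → M → Qb) (he : ∀ i, e i ∈ Λ) (hli : LinearIndependent Qb e)
    (hexp : ∀ f ∈ Λ, ∃ c : Fin n → Zl ℓ, f = ∑ i, c i • e i)
    (χ : M → Qb) (h0 : χ 0 = 1) (hadd : ∀ x y : M, χ (x + y) = χ x * χ y) :
    ∃ c : Fin n → Qb, (∀ i, IsIntegral (Zl ℓ) (c i)) ∧ χ = ∑ i, c i • e i := by
  obtain ⟨c, hc⟩ := exists_coeff_of_basis hΛ.separates e hexp χ
  obtain ⟨γ, hγ⟩ := exists_comul_constants hΛ e he hexp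
  refine ⟨c, ?_, hc⟩
  have hχ : ∀ x : M, χ x = ∑ i, c i * e i x := by
    intro x
    rw [hc, sum_Qb_smul_apply]
  -- the group-like identity
  have hgl : ∀ i k : Fin n, c i * c k = ∑ j, algebraMap (Zl ℓ) Qb (γ j i k) * c j := by
    have := eq_zero_of_sum_mul_eq_zero e hli
      (fun i k => c i * c k - ∑ j, algebraMap (Zl ℓ) Qb (γ j i k) * c j) (by
        intro x y
        have h1 : ∑ i, ∑ k, c i * c k * (e i x * e k y) = χ x * χ y := by
          rw [hχ x, hχ y, Finset.sum_mul_sum]
          refine Finset.sum_congr rfl fun i _ => Finset.sum_congr rfl fun k _ => ?_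
          ring
        have h2 : χ (x + y) =
            ∑ i, ∑ k, (∑ j, algebraMap (Zl ℓ) Qb (γ j i k) * c j) * (e i x * e k y) := by
          rw [hχ (x + y)]
          have h3 : ∀ j, c j * e j (x + y) =
              ∑ i, ∑ k, algebraMap (Zl ℓ) Qb (γ j i k) * c j * (e i x * e k y) := by
            intro j
            rw [hγ j x y, Finset.mul_sum]
            refine Finset.sum_congr rfl fun i _ => ?_
            rw [Finset.mul_sum]
            refine Finset.sum_congr rfl fun k _ => ?_
            ring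
          simp_rw [h3]
          rw [Finset.sum_comm]
          refine Finset.sum_congr rfl fun i _ => ?_
          rw [Finset.sum_comm]
          refine Finset.sum_congr rfl fun k _ => ?_
          rw [Finset.sum_mul]
        simp only [sub_mul, Finset.sum_sub_distrib]
        rw [h1, ← h2, hadd, sub_self])
    intro i k
    exact sub_eq_zero.mp (this i k)
  -- the module generated by the coefficients
  set N : Submodule (Zl ℓ) Qb := Submodule.span (Zl ℓ) (Set.range c) with hN
  have hNfg : N.FG := Submodule.fg_span (Set.finite_range c)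
  have hNne : N ≠ ⊥ := by
    intro hbot
    have hc0 : ∀ i, c i = 0 := by
      intro i
      have : c i ∈ N := Submodule.subset_span ⟨i, rfl⟩
      rw [hbot] at this
      exact (Submodule.mem_bot _).mp this
    have : χ 0 = 0 := by
      rw [hχ 0]
      exact Finset.sum_eq_zero fun i _ => by rw [hc0 i, zero_mul]
    rw [h0] at this
    exact one_ne_zero this
  intro i
  refine isIntegral_of_smul_mem_submodule (R := Zl ℓ) (A := Qb) (M := Qb) N hNne hNfg (c i) ?_
  intro z hz
  induction hz using Submodule.span_induction with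
  | mem z hz =>
    obtain ⟨k, rfl⟩ := hz
    show c i * c k ∈ N
    rw [hgl i k]
    refine Submodule.sum_mem _ fun j _ => ?_
    have : algebraMap (Zl ℓ) Qb (γ j i k) * c j = γ j i k • c j := (Algebra.smul_def _ _).symm
    rw [this]
    exact Submodule.smul_mem _ _ (Submodule.subset_span ⟨j, rfl⟩)
  | zero =>
    rw [smul_zero]
    exact Submodule.zero_mem _
  | add x y _ _ hx hy =>
    rw [smul_add]
    exact Submodule.add_mem _ hx hy
  | smul r x _ hx =>
    rw [smul_comm]
    exact Submodule.smul_mem _ _ hx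

end Fermat.Agent.S56.FO.H6
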