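import Fermat.Agent.S56.FO.H6.CEMain
import Fermat.Agent.S56.H486.FlatTame
import Fermat.Agent.S56.H486.FlatOLoc

/-!
# S56 / FLAT-O / STRUCT (helper6): the ordinary line of a flat lift, reducible case

`k` finite of characteristic `p` odd, `ρ̄` with cyclotomic determinant and a `D_P`-stable line,
`ρ'` a lift of `ρ̄` to `k[ε]` (`H716.IsLiftOf ρbar c ρ'`) which is FLAT at `p`
(Prelude `IsFlatAt`).  Then (`flatOrdLine`) `ρ'` is ORDINARY at `P` in the Prelude's sense:
there is a basis `b` of `ρ'.V` over `k[ε]` such that the line `L = k[ε] ∙ b 0` is `D_P`-stable and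
the inertia group `I_P` acts trivially on `ρ'.V / L`.   (`L` is the inertia augmentation.)

Steps (doc `coord/S56-FLAT-O-CE-helper6.md` §3):
* Part A: Hopf lattices on `X = k[ε] ⊗ V` (action `liftEnd`) and on `V` (pullback along `v ↦ ε ⊗ v`).
* Part B (S1): the inertia augmentation of `V` is a line      [FI + FT + TAMEFROB + det].
* Part C (S2): the inertia augmentation of `X` is `k[ε] ∙ n₀`, `n₀ ∉ εX`     [relative CE].
* Part D: the basis.
-/

set_option autoImplicit false
set_option linter.style.haveILetI false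
set_option linter.unusedSectionVars false

open scoped TensorProduct

noncomputable section

namespace Fermat.Agent.S56.FO.H6

open Fermat.Agent.S56 Fermat.Agent.S56.H716 Fermat.Agent.S56.H656

/-! ## The inertia augmentation -/

/-- The subgroup generated by the `act σ y - y`, `σ ∈ I_P`. -/
def augGroup (P : ValuationSubring Qb) {X : Type*} [AddCommGroup X] (act : GQ → X → X) :
    AddSubgroup X :=
  AddSubgroup.closure {z : X | ∃ σ ∈ P.inertiaSubgroupIn ℚ, ∃ y : X, z = act σ y - y}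

theorem sub_mem_augGroup (P : ValuationSubring Qb) {X : Type*} [AddCommGroup X]
    (act : GQ → X → X) {σ : GQ} (hσ : σ ∈ P.inertiaSubgroupIn ℚ) (y : X) :
    act σ y - y ∈ augGroup P act :=
  AddSubgroup.subset_closure ⟨σ, hσ, y, rfl⟩

section linear

variable {R : Type*} [Ring R] {X : Type*} [AddCommGroup X] [Module R X]
  (P : ValuationSubring Qb) (T : GQ →* Module.End R X)

/-- The augmentation is stable under the scalars commuting with the action. -/
theorem smul_mem_augGroup (a : R) {x : X} (hx : x ∈ augGroup P (fun σ y => T σ y)) :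
    a • x ∈ augGroup P (fun σ y => T σ y) := by
  induction hx using AddSubgroup.closure_induction with
  | mem z hz =>
    obtain ⟨σ, hσ, y, rfl⟩ := hz
    have : a • (T σ y - y) = T σ (a • y) - a • y := by rw [smul_sub, map_smul]
    rw [this]
    exact sub_mem_augGroup P _ hσ _
  | zero => rw [smul_zero]; exact AddSubgroup.zero_mem _
  | add x y _ _ hx hy => rw [smul_add]; exact AddSubgroup.add_mem _ hx hy
  | neg x _ hx => rw [smul_neg]; exact AddSubgroup.neg_mem _ hx

/-- The augmentation is stable under the decomposition group. -/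
theorem map_mem_augGroup {g : GQ} (hg : g ∈ P.decompositionSubgroup ℚ) {x : X}
    (hx : x ∈ augGroup P (fun σ y => T σ y)) : T g x ∈ augGroup P (fun σ y => T σ y) := by
  induction hx using AddSubgroup.closure_induction with
  | mem z hz =>
    obtain ⟨σ, hσ, y, rfl⟩ := hz
    have hconj : g * σ * g⁻¹ ∈ P.inertiaSubgroupIn ℚ := by
      obtain ⟨σ', hσ', rfl⟩ := hσ
      have hn : (P.inertiaSubgroup ℚ).Normal := MonoidHom.normal_ker _
      have h := hn.conj_mem σ' hσ' ⟨g, hg⟩
      exact Subgroup.mem_map_of_mem (P.decompositionSubgroup ℚ).subtype h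
    have : T g (T σ y - y) = T (g * σ * g⁻¹) (T g y) - T g y := by
      rw [map_sub]
      congr 1
      rw [← Module.End.mul_apply, ← Module.End.mul_apply, ← map_mul, ← map_mul]
      congr 2
      group
    rw [this]
    exact sub_mem_augGroup P _ hconj _
  | zero => rw [map_zero]; exact AddSubgroup.zero_mem _
  | add x y _ _ hx hy => rw [map_add]; exact AddSubgroup.add_mem _ hx hy
  | neg x _ hx => rw [map_neg]; exact AddSubgroup.neg_mem _ hx

/-- The augmentation as a submodule. -/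
def augSub : Submodule R X where
  carrier := augGroup P (fun σ y => T σ y)
  add_mem' := fun ha hb => AddSubgroup.add_mem _ ha hb
  zero_mem' := AddSubgroup.zero_mem _
  smul_mem' := fun a _ hx => smul_mem_augGroup P T a hx

theorem mem_augSub {x : X} : x ∈ augSub P T ↔ x ∈ augGroup P (fun σ y => T σ y) := Iff.rfl

end linear

/-! ## Small lemmas -/

/-- An element of a field of characteristic `p` fixed by Frobenius is a natural number. -/
theorem exists_natCast_of_pow_eq_self {k : Type*} [Field k] (p : ℕ) [Fact p.Prime] [CharP k p]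
    {x : k} (h : x ^ p = x) : ∃ n : ℕ, x = (n : k) := by
  rw [← Subfield.mem_bot_iff_pow_eq_self k p] at h
  obtain ⟨z, hz⟩ := (mem_bot_iff_intCast p k).mp h
  refine ⟨((z : ZMod p)).val, ?_⟩
  rw [← hz]
  have h1 : ((ZMod.castHom (dvd_refl p) k) (z : ZMod p)) = (z : k) := map_intCast _ z
  rw [← h1, ZMod.castHom_apply, ZMod.natCast_val]

/-- In a `2`-dimensional space, a subspace which is neither `⊥` nor `⊤` is a line. -/
theorem exists_eq_smul_of_ne_bot_of_ne_top {k : Type*} [Field k] {V : Type*} [AddCommGroup V]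
    [Module k V] (h2 : Module.finrank k V = 2) (U : Submodule k V) (h0 : U ≠ ⊥) (h1 : U ≠ ⊤) :
    ∃ l₀ : V, l₀ ≠ 0 ∧ l₀ ∈ U ∧ ∀ z ∈ U, ∃ t : k, z = t • l₀ := by
  haveI : Module.Finite k V := Module.finite_of_finrank_eq_succ h2
  have hle : Module.finrank k U ≤ 2 := h2 ▸ Submodule.finrank_le U
  have hne0 : Module.finrank k U ≠ 0 := fun h => h0 (Submodule.finrank_eq_zero.mp h)
  have hne2 : Module.finrank k U ≠ 2 := fun h =>
    h1 (Submodule.eq_top_of_finrank_eq (h.trans h2.symm))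
  have hone : Module.finrank k U = 1 := by omega
  obtain ⟨v, hv0, hv⟩ := finrank_eq_one_iff'.mp hone
  refine ⟨v, fun h => hv0 (Subtype.ext h), v.2, fun z hz => ?_⟩
  obtain ⟨t, ht⟩ := hv ⟨z, hz⟩
  exact ⟨t, (congrArg Subtype.val ht).symm⟩

/-! ## Part A: the Hopf lattices -/

section lattices

variable {k : Type} [Field k] (ρbar : ResidualGaloisRep k) (c : GQ → Module.End k ρbar.V)

/-- `v ↦ ε • (1 ⊗ v)`, the inclusion of `V` as `ε X`. -/
def epsIota : ρbar.V →+ (DualNumber k ⊗[k] ρbar.V) where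
  toFun v := (DualNumber.eps : DualNumber k) • dIota (k := k) v
  map_zero' := by rw [map_zero, smul_zero]
  map_add' x y := by rw [map_add, smul_add]

theorem epsIota_apply (v : ρbar.V) :
    epsIota ρbar v = (DualNumber.eps : DualNumber k) • dIota (k := k) v := rfl

theorem dPi0_epsIota (v : ρbar.V) : dPi0 (epsIota ρbar v) = 0 := by
  rw [epsIota_apply, dPi0_smul, DualNumber.fst_eps, zero_smul]

theorem dPi1_epsIota (v : ρbar.V) : dPi1 (epsIota ρbar v) = v := by
  rw [epsIota_apply, dPi1_smul, DualNumber.fst_eps, DualNumber.snd_eps, zero_smul, zero_add,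
    one_smul, dPi0_dIota]

theorem epsIota_injective : Function.Injective (epsIota ρbar) := by
  intro x y h
  have := congrArg (dPi1 (k := k)) h
  rwa [dPi1_epsIota, dPi1_epsIota] at this

/-- `ε • x = ε ⊗ (x mod ε)`. -/
theorem eps_smul_eq (x : DualNumber k ⊗[k] ρbar.V) :
    (DualNumber.eps : DualNumber k) • x = epsIota ρbar (dPi0 x) := by
  apply coord_ext
  · rw [dPi0_smul, DualNumber.fst_eps, zero_smul, dPi0_epsIota]
  · rw [dPi1_smul, DualNumber.fst_eps, DualNumber.snd_eps, zero_smul, zero_add, one_smul,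
      dPi1_epsIota]

/-- An element with trivial reduction is in `ε X`. -/
theorem eq_epsIota_of_dPi0_eq_zero {x : DualNumber k ⊗[k] ρbar.V} (h : dPi0 x = 0) :
    x = epsIota ρbar (dPi1 x) := by
  apply coord_ext
  · rw [h, dPi0_epsIota]
  · rw [dPi1_epsIota]

theorem liftEnd_epsIota (σ : GQ) (v : ρbar.V) :
    liftEnd ρbar c σ (epsIota ρbar v) = epsIota ρbar (ρbar.ρ σ v) := by
  apply coord_ext
  · rw [dPi0_liftEnd, dPi0_epsIota, dPi0_epsIota, map_zero]
  · rw [dPi1_liftEnd, dPi1_epsIota, dPi0_epsIota, dPi1_epsIota, map_zero, map_zero, add_zero]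

/-- `liftEnd` as a monoid homomorphism, when it is conjugate to a representation. -/
theorem liftEnd_mul_of_isLiftOf {ρ' : GaloisRepAdic (DualNumber k)} (hl : IsLiftOf ρbar c ρ')
    (σ τ : GQ) : liftEnd ρbar c (σ * τ) = liftEnd ρbar c σ * liftEnd ρbar c τ := by
  obtain ⟨e, he⟩ := hl
  apply LinearMap.ext
  intro x
  obtain ⟨v, rfl⟩ := e.surjective x
  rw [Module.End.mul_apply, ← he, ← he, ← he, map_mul, Module.End.mul_apply]

theorem liftEnd_one_of_isLiftOf {ρ' : GaloisRepAdic (DualNumber k)} (hl : IsLiftOf ρbar c ρ') :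
    liftEnd ρbar c 1 = 1 := by
  obtain ⟨e, he⟩ := hl
  apply LinearMap.ext
  intro x
  obtain ⟨v, rfl⟩ := e.surjective x
  rw [← he, map_one, Module.End.one_apply, Module.End.one_apply]

/-- `σ ↦ liftEnd ρbar c σ` as a representation. -/
def liftHom {ρ' : GaloisRepAdic (DualNumber k)} (hl : IsLiftOf ρbar c ρ') :
    GQ →* Module.End (DualNumber k) (DualNumber k ⊗[k] ρbar.V) where
  toFun σ := liftEnd ρbar c σ
  map_one' := liftEnd_one_of_isLiftOf ρbar c hl
  map_mul' := liftEnd_mul_of_isLiftOf ρbar c hl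

@[simp] theorem liftHom_apply {ρ' : GaloisRepAdic (DualNumber k)} (hl : IsLiftOf ρbar c ρ')
    (σ : GQ) : liftHom ρbar c hl σ = liftEnd ρbar c σ := rfl

variable [Finite k]

instance finite_dualNumber : Finite (DualNumber k) :=
  inferInstanceAs (Finite (k × k))

/-- A flat lift gives a Hopf lattice on `k[ε] ⊗ V` for the action `liftEnd`. -/
theorem exists_lattice_lift {p : ℕ} {ρ' : GaloisRepAdic (DualNumber k)}
    (hl : IsLiftOf ρbar c ρ') (hflat : ρ'.IsFlatAt p) :
    ∃ Λ : Subalgebra (H906.Zp p) ((DualNumber k ⊗[k] ρbar.V) → Qb),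
      H906.IsHL p (fun σ x => liftEnd ρbar c σ x) Λ := by
  obtain ⟨-, hI⟩ := hflat
  have hmodel : Fermat.Agent.S19.HopfModel p
      (ρ'.V ⧸ ((⊥ : Ideal (DualNumber k)) • (⊤ : Submodule (DualNumber k) ρ'.V)))
      (fun σ x => ρ'.levelAction ⊥ σ x) :=
    hI ⊥ (Finite.of_surjective (Ideal.Quotient.mk (⊥ : Ideal (DualNumber k)))
      Ideal.Quotient.mk_surjective)
  obtain ⟨Λ₀, hΛ₀⟩ := Fermat.Agent.S19.H435.exists_isHopfLattice_of_hopfModel hmodel
  obtain ⟨e, he⟩ := hl
  set Q := ((⊥ : Ideal (DualNumber k)) • (⊤ : Submodule (DualNumber k) ρ'.V)) with hQ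
  have hQbot : Q = ⊥ := by rw [hQ, Submodule.bot_smul]
  let ι : (DualNumber k ⊗[k] ρbar.V) →+ (ρ'.V ⧸ Q) :=
    (Q.mkQ.toAddMonoidHom).comp (e.symm.toLinearMap.toAddMonoidHom)
  have hι : Function.Injective ι := by
    intro x y h
    have h1 : Q.mkQ (e.symm x) = Q.mkQ (e.symm y) := h
    rw [← sub_eq_zero, ← map_sub, Submodule.mkQ_apply, Submodule.Quotient.mk_eq_zero, hQbot,
      Submodule.mem_bot, sub_eq_zero] at h1
    exact e.symm.injective h1
  have hcompat : ∀ (σ : GQ) (x : DualNumber k ⊗[k] ρbar.V),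
      ι (liftEnd ρbar c σ x) = ρ'.levelAction ⊥ σ (ι x) := by
    intro σ x
    show Q.mkQ (e.symm (liftEnd ρbar c σ x)) = ρ'.levelAction ⊥ σ (Q.mkQ (e.symm x))
    have h1 : e.symm (liftEnd ρbar c σ x) = ρ'.ρ σ (e.symm x) := by
      apply e.injective
      rw [he, e.apply_symm_apply, e.apply_symm_apply]
    rw [h1]
    rfl
  exact ⟨_, Fermat.Agent.S19.H435.IsHopfLattice.pullback hΛ₀ ι hι
    (fun σ x => liftEnd ρbar c σ x) hcompat⟩

/-- A flat lift gives a Hopf lattice on `V` (embedded as `ε X`), compatible with the one on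
`k[ε] ⊗ V`. -/
theorem lattice_residual {p : ℕ} {Λ : Subalgebra (H906.Zp p) ((DualNumber k ⊗[k] ρbar.V) → Qb)}
    (hΛ : H906.IsHL p (fun σ x => liftEnd ρbar c σ x) Λ) :
    H906.IsHL p (fun σ v => ρbar.ρ σ v)
      (Λ.map (Fermat.Agent.S19.H435.precompAlgHom p (epsIota ρbar))) :=
  Fermat.Agent.S19.H435.IsHopfLattice.pullback hΛ (epsIota ρbar) (epsIota_injective ρbar)
    (fun σ v => ρbar.ρ σ v) (fun σ v => (liftEnd_epsIota ρbar c σ v).symm)

end lattices

/-! ## Part B (S1): the inertia augmentation of `V` is a line -/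

section S1

/-- An endomorphism of a plane with an eigenvector `w` of eigenvalue `a = det ≠ 0` is trivial
modulo `w`. -/
theorem exists_sub_eq_smul_of_det {k : Type*} [Field k] {V : Type*} [AddCommGroup V]
    [Module k V] (h2 : Module.finrank k V = 2) (f : Module.End k V) {w : V} (hw : w ≠ 0)
    {a : k} (ha : a ≠ 0) (hfw : f w = a • w) (hdet : LinearMap.det f = a) (v : V) :
    ∃ t : k, f v - v = t • w := by
  classical
  haveI : Module.Finite k V := Module.finite_of_finrank_eq_succ h2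
  obtain ⟨v₁, hv₁⟩ : ∃ v₁ : V, v₁ ∉ Submodule.span k {w} := by
    by_contra hcon
    push Not at hcon
    have htop : Submodule.span k {w} = ⊤ := eq_top_iff.mpr fun x _ => hcon x
    have h1 := finrank_span_singleton (K := k) hw
    rw [htop, finrank_top, h2] at h1
    omega
  have hli : LinearIndependent k ![w, v₁] := by
    rw [LinearIndependent.pair_iff]
    intro s t hst
    have ht : t = 0 := by
      by_contra ht
      apply hv₁
      rw [Submodule.mem_span_singleton]
      refine ⟨-(t⁻¹ * s), ?_⟩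
      have h3 : t • v₁ = -(s • w) := eq_neg_of_add_eq_zero_right hst
      calc (-(t⁻¹ * s)) • w = t⁻¹ • (-(s • w)) := by rw [neg_smul, mul_smul, smul_neg]
        _ = t⁻¹ • (t • v₁) := by rw [h3]
        _ = v₁ := by rw [smul_smul, inv_mul_cancel₀ ht, one_smul]
    rw [ht, zero_smul, add_zero] at hst
    exact ⟨(smul_eq_zero.mp hst).resolve_right hw, ht⟩
  set B : Module.Basis (Fin 2) k V :=
    basisOfLinearIndependentOfCardEqFinrank hli (by rw [h2, Fintype.card_fin]) with hB
  have hB0 : B 0 = w := by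
    rw [hB, coe_basisOfLinearIndependentOfCardEqFinrank]
    rfl
  have hB1 : B 1 = v₁ := by
    rw [hB, coe_basisOfLinearIndependentOfCardEqFinrank]
    rfl
  set M := LinearMap.toMatrix B B f with hM
  have hM00 : M 0 0 = a := by
    rw [hM, LinearMap.toMatrix_apply, hB0, hfw, map_smul, ← hB0, B.repr_self]
    simp
  have hM10 : M 1 0 = 0 := by
    rw [hM, LinearMap.toMatrix_apply, hB0, hfw, map_smul, ← hB0, B.repr_self]
    simp
  have hdetM : M.det = a := by rw [hM, LinearMap.det_toMatrix, hdet]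
  rw [Matrix.det_fin_two, hM00, hM10, mul_zero, sub_zero] at hdetM
  have hM11 : M 1 1 = 1 := by
    have := mul_left_cancel₀ ha (hdetM.trans (mul_one a).symm)
    exact this
  have hf1 : f v₁ = M 0 1 • w + v₁ := by
    have h3 := B.sum_repr (f v₁)
    rw [Fin.sum_univ_two] at h3
    have h4 : B.repr (f v₁) 0 = M 0 1 := by rw [hM, LinearMap.toMatrix_apply, hB1]
    have h5 : B.repr (f v₁) 1 = M 1 1 := by rw [hM, LinearMap.toMatrix_apply, hB1]
    rw [h4, h5, hM11, one_smul, hB0, hB1] at h3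
    exact h3.symm
  have hv := B.sum_repr v
  rw [Fin.sum_univ_two, hB0, hB1] at hv
  refine ⟨B.repr v 0 * (a - 1) + B.repr v 1 * M 0 1, ?_⟩
  conv_lhs => rw [← hv]
  rw [map_add, map_smul, map_smul, hfw, hf1]
  simp only [smul_add, smul_smul, add_smul, mul_sub, sub_smul, mul_one]
  abel

variable {k : Type} [Field k] [Finite k] {p : ℕ} [Fact p.Prime] [CharP k p]
  (ρbar : ResidualGaloisRep k)

theorem nsmul_eq_zero_of_charP (v : ρbar.V) : p • v = 0 := by
  rw [← Nat.cast_smul_eq_nsmul k, CharP.cast_eq_zero, zero_smul]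

/-- **(S1)** If `V` is flat, has cyclotomic determinant and a `D_P`-stable line, then the
inertia augmentation of `V` is a line. -/
theorem exists_aug_line (hp2 : p ≠ 2)
    {Λ : Subalgebra (H906.Zp p) (ρbar.V → Qb)} (hΛ : H906.IsHL p (fun σ v => ρbar.ρ σ v) Λ)
    (hdet : ∀ (σ : GQ) (a : ℕ), IsCycExp p σ a → LinearMap.det (ρbar.ρ σ) = (a : k))
    (P : ValuationSubring Qb) (hP : P.LiesOverPrime p)
    (hred : ∃ U : Submodule k ρbar.V, U ≠ ⊥ ∧ U ≠ ⊤ ∧
      ∀ σ ∈ P.decompositionSubgroup ℚ, ∀ x ∈ U, ρbar.ρ σ x ∈ U) :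
    ∃ l₀ : ρbar.V, l₀ ≠ 0 ∧ l₀ ∈ augGroup P (fun σ v => ρbar.ρ σ v) ∧
      ∀ z ∈ augGroup P (fun σ v => ρbar.ρ σ v), ∃ t : k, z = t • l₀ := by
  classical
  have hp : p.Prime := Fact.out
  have hkill : ∀ v : ρbar.V, p • v = 0 := nsmul_eq_zero_of_charP ρbar
  haveI : Finite ρbar.V := Module.finite_of_finite k
  refine exists_eq_smul_of_ne_bot_of_ne_top ρbar.finrank_eq (augSub P ρbar.ρ) ?_ ?_
  · -- not `⊥`
    intro hbot
    obtain ⟨σ₀, hσ₀, a, ha, hane⟩ := exists_inertia_isCycExp_ne_one hp hp2 k P hP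
    have h1 : ρbar.ρ σ₀ = 1 := by
      apply LinearMap.ext
      intro v
      have : ρbar.ρ σ₀ v - v ∈ augSub P ρbar.ρ := sub_mem_augGroup P _ hσ₀ v
      rw [hbot, Submodule.mem_bot, sub_eq_zero] at this
      rw [this, Module.End.one_apply]
    have h2 := hdet σ₀ a ha
    rw [h1, map_one] at h2
    exact hane h2.symm
  · -- not `⊤`
    intro htop
    obtain ⟨U, hU0, hU1, hUD⟩ := hred
    obtain ⟨w, hw0, hwU, hwgen⟩ := exists_eq_smul_of_ne_bot_of_ne_top ρbar.finrank_eq U hU0 hU1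
    have hchar : ∀ σ ∈ P.decompositionSubgroup ℚ, ∃ t : k, ρbar.ρ σ w = t • w :=
      fun σ hσ => hwgen _ (hUD σ hσ w hwU)
    obtain ⟨φ, hφ⟩ : ∃ φ : ρbar.V →ₗ[k] k, φ w = 1 := by
      obtain ⟨f, hf, -⟩ : ∃ f : ρbar.V →ₗ[k] k, f w ≠ 0 ∧
          (⊥ : Submodule k ρbar.V).map f = ⊥ :=
        Submodule.exists_dual_map_eq_bot_of_notMem (p := (⊥ : Submodule k ρbar.V))
          (by rwa [Submodule.mem_bot]) inferInstance
      exact ⟨(f w)⁻¹ • f, by rw [LinearMap.smul_apply, smul_eq_mul, inv_mul_cancel₀ hf]⟩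
    set a : GQ → k := fun σ => φ (ρbar.ρ σ w) with ha
    have haD : ∀ σ ∈ P.decompositionSubgroup ℚ, ρbar.ρ σ w = a σ • w := by
      intro σ hσ
      obtain ⟨t, ht⟩ := hchar σ hσ
      have : a σ = t := by
        show φ (ρbar.ρ σ w) = t
        rw [ht, map_smul, hφ, smul_eq_mul, mul_one]
      rw [this, ht]
    have hloc : H906.IsLocChar P a := by
      refine ⟨?_, ?_, ?_⟩
      · show φ (ρbar.ρ 1 w) = 1
        rw [map_one, Module.End.one_apply, hφ]
      · intro σ hσ τ hτ
        show φ (ρbar.ρ (σ * τ) w) = a σ * a τ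
        rw [map_mul, Module.End.mul_apply, haD τ hτ, map_smul, haD σ hσ, smul_smul, map_smul, hφ,
          smul_eq_mul, mul_one, mul_comm]
      · obtain ⟨L, hL, hLρ⟩ := ρbar.factorsThroughFiniteLevel
        refine ⟨L, hL, fun σ _ τ _ hτL => ?_⟩
        show φ (ρbar.ρ (σ * τ) w) = φ (ρbar.ρ σ w)
        rw [map_mul, hLρ τ hτL, mul_one]
    have htame := H486.tameFrob p k P hP a hloc
    have hsc : ∀ τ ∈ P.inertiaSubgroupIn ℚ, ∃ n : ℕ, ρbar.ρ τ w = n • w := by
      intro τ hτ
      obtain ⟨n, hn⟩ := exists_natCast_of_pow_eq_self p (htame τ hτ)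
      refine ⟨n, ?_⟩
      rw [haD τ (mem_decomposition_of_mem_inertia hτ), hn, Nat.cast_smul_eq_nsmul]
    rcases H486.flatTame p hp2 ρbar.V (fun σ v => ρbar.ρ σ v) Λ hΛ hkill P hP w hw0 hsc with
      hA | hB
    · -- trivial character: contradiction with (FI)
      apply hw0
      refine H906.flatInertia p hp2 ρbar.V (fun σ v => ρbar.ρ σ v) Λ hΛ hkill P hP w hA ?_
      have : w ∈ augSub P ρbar.ρ := by rw [htop]; exact Submodule.mem_top
      exact this
    · -- cyclotomic character: the augmentation is contained in `U`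
      have hsub : augSub P ρbar.ρ ≤ U := by
        intro z hz
        rw [mem_augSub] at hz
        induction hz using AddSubgroup.closure_induction with
        | mem z hz =>
          obtain ⟨τ, hτ, v, rfl⟩ := hz
          obtain ⟨n, hn⟩ := Fermat.Agent.S56.H966.exists_isCycExp p hp.ne_zero τ
          have hn0 : (n : k) ≠ 0 := isCycExp_cast_ne_zero hp hn
          have hτw : ρbar.ρ τ w = (n : k) • w := by
            have := hB τ hτ n hn
            rw [Nat.cast_smul_eq_nsmul]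
            exact this
          obtain ⟨t, ht⟩ := exists_sub_eq_smul_of_det ρbar.finrank_eq (ρbar.ρ τ) hw0 hn0 hτw
            (hdet τ n hn) v
          show ρbar.ρ τ v - v ∈ U
          rw [ht]
          exact U.smul_mem t hwU
        | zero => exact U.zero_mem
        | add x y _ _ hx hy => exact U.add_mem hx hy
        | neg x _ hx => exact U.neg_mem hx
      exact hU1 (eq_top_iff.mpr (htop ▸ hsub))

end S1

/-! ## Part C (S2): the inertia augmentation of `k[ε] ⊗ V` -/

section S2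

variable {k : Type} [Field k] [Finite k] {p : ℕ} [Fact p.Prime] [CharP k p]
  (ρbar : ResidualGaloisRep k) (c : GQ → Module.End k ρbar.V)

theorem nsmul_tensor_eq_zero (x : DualNumber k ⊗[k] ρbar.V) : p • x = 0 := by
  rw [← Nat.cast_smul_eq_nsmul k, CharP.cast_eq_zero, zero_smul]

/-- **(S2)** the inertia augmentation of a flat lift is generated over `k[ε]` by one element
`n₀` with nonzero reduction; it is stable under `D_P`. -/
theorem exists_aug_generator (hp2 : p ≠ 2) {ρ' : GaloisRepAdic (DualNumber k)}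
    (hl : IsLiftOf ρbar c ρ')
    {Λ : Subalgebra (H906.Zp p) ((DualNumber k ⊗[k] ρbar.V) → Qb)}
    (hΛ : H906.IsHL p (fun σ x => liftEnd ρbar c σ x) Λ)
    (hdet : ∀ (σ : GQ) (a : ℕ), IsCycExp p σ a → LinearMap.det (ρbar.ρ σ) = (a : k))
    (P : ValuationSubring Qb) (hP : P.LiesOverPrime p)
    (hred : ∃ U : Submodule k ρbar.V, U ≠ ⊥ ∧ U ≠ ⊤ ∧
      ∀ σ ∈ P.decompositionSubgroup ℚ, ∀ x ∈ U, ρbar.ρ σ x ∈ U) :
    ∃ n₀ : DualNumber k ⊗[k] ρbar.V, dPi0 n₀ ≠ 0 ∧
      (∀ σ ∈ P.inertiaSubgroupIn ℚ, ∀ y : DualNumber k ⊗[k] ρbar.V,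
        ∃ a : DualNumber k, liftEnd ρbar c σ y - y = a • n₀) ∧
      (∀ σ ∈ P.decompositionSubgroup ℚ, ∃ a : DualNumber k, liftEnd ρbar c σ n₀ = a • n₀) := by
  classical
  have hp : p.Prime := Fact.out
  haveI : Finite (DualNumber k ⊗[k] ρbar.V) := Module.finite_of_finite (DualNumber k)
  set T := liftHom ρbar c hl with hT
  set N := augGroup P (fun σ x => liftEnd ρbar c σ x) with hN
  set ZV := augGroup P (fun σ v => ρbar.ρ σ v) with hZV
  obtain ⟨l₀, hl0, hl₀Z, hZgen⟩ :=
    exists_aug_line ρbar hp2 (lattice_residual ρbar c hΛ) hdet P hP hred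
  -- (N2)
  have hN2 : ∀ n ∈ N, dPi0 n ∈ ZV := by
    intro n hn
    induction hn using AddSubgroup.closure_induction with
    | mem z hz =>
      obtain ⟨σ, hσ, y, rfl⟩ := hz
      rw [map_sub, dPi0_liftEnd]
      exact sub_mem_augGroup P _ hσ _
    | zero => rw [map_zero]; exact AddSubgroup.zero_mem _
    | add x y _ _ hx hy => rw [map_add]; exact AddSubgroup.add_mem _ hx hy
    | neg x _ hx => rw [map_neg]; exact AddSubgroup.neg_mem _ hx
  -- (N3)
  have hN3 : ∀ z ∈ ZV, ∃ n ∈ N, dPi0 n = z := by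
    intro z hz
    induction hz using AddSubgroup.closure_induction with
    | mem z hz =>
      obtain ⟨σ, hσ, v, rfl⟩ := hz
      refine ⟨liftEnd ρbar c σ (dIota v) - dIota v, sub_mem_augGroup P _ hσ _, ?_⟩
      rw [map_sub, dPi0_liftEnd, dPi0_dIota]
    | zero => exact ⟨0, AddSubgroup.zero_mem _, map_zero _⟩
    | add x y _ _ hx hy =>
      obtain ⟨n₁, h₁, rfl⟩ := hx
      obtain ⟨n₂, h₂, rfl⟩ := hy
      exact ⟨n₁ + n₂, AddSubgroup.add_mem _ h₁ h₂, map_add _ _ _⟩
    | neg x _ hx =>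
      obtain ⟨n₁, h₁, rfl⟩ := hx
      exact ⟨-n₁, AddSubgroup.neg_mem _ h₁, map_neg _ _⟩
  -- (N4)
  have hN4 : ∀ n ∈ N, dPi0 n = 0 → ∃ z ∈ ZV, n = epsIota ρbar z := by
    intro n hn h0
    have hnE : n ∈ (epsIota ρbar).range := ⟨dPi1 n, (eq_epsIota_of_dPi0_eq_zero ρbar h0).symm⟩
    have hE : ∀ (σ : GQ), ∀ x ∈ (epsIota ρbar).range,
        (fun σ x => liftEnd ρbar c σ x) σ x ∈ (epsIota ρbar).range := by
      rintro σ _ ⟨v, rfl⟩
      exact ⟨ρbar.ρ σ v, (liftEnd_epsIota ρbar c σ v).symm⟩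
    have h1 := mem_closure_of_mem_closure hp2 hΛ (nsmul_tensor_eq_zero ρbar) P hP
      (epsIota ρbar).range hE hnE hn
    have key : ∀ x ∈ AddSubgroup.closure
        {z : DualNumber k ⊗[k] ρbar.V | ∃ σ ∈ P.inertiaSubgroupIn ℚ,
          ∃ y ∈ (epsIota ρbar).range, z = (fun σ x => liftEnd ρbar c σ x) σ y - y},
        ∃ z ∈ ZV, x = epsIota ρbar z := by
      intro x hx
      induction hx using AddSubgroup.closure_induction with
      | mem z hz =>
        obtain ⟨σ, hσ, y, ⟨v, rfl⟩, rfl⟩ := hz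
        refine ⟨ρbar.ρ σ v - v, sub_mem_augGroup P _ hσ _, ?_⟩
        show liftEnd ρbar c σ (epsIota ρbar v) - epsIota ρbar v = _
        rw [liftEnd_epsIota, map_sub]
      | zero => exact ⟨0, AddSubgroup.zero_mem _, (map_zero _).symm⟩
      | add x y _ _ hx hy =>
        obtain ⟨z₁, h₁, rfl⟩ := hx
        obtain ⟨z₂, h₂, rfl⟩ := hy
        exact ⟨z₁ + z₂, AddSubgroup.add_mem _ h₁ h₂, (map_add _ _ _).symm⟩
      | neg x _ hx =>
        obtain ⟨z₁, h₁, rfl⟩ := hx
        exact ⟨-z₁, AddSubgroup.neg_mem _ h₁, (map_neg _ _).symm⟩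
    exact key n h1
  -- the generator
  obtain ⟨n₀, hn₀N, hn₀⟩ := hN3 l₀ hl₀Z
  have hNsmul : ∀ (a : DualNumber k) (n : DualNumber k ⊗[k] ρbar.V), n ∈ N → a • n ∈ N :=
    fun a n hn => smul_mem_augGroup P T a hn
  have hgen : ∀ n ∈ N, ∃ a : DualNumber k, n = a • n₀ := by
    intro n hn
    obtain ⟨t, ht⟩ := hZgen _ (hN2 n hn)
    have hn' : n - (TrivSqZeroExt.inl t : DualNumber k) • n₀ ∈ N :=
      AddSubgroup.sub_mem _ hn (hNsmul _ _ hn₀N)
    have h0 : dPi0 (n - (TrivSqZeroExt.inl t : DualNumber k) • n₀) = 0 := by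
      rw [map_sub, dPi0_smul, TrivSqZeroExt.fst_inl, hn₀, ht, sub_self]
    obtain ⟨z, hz, hzn⟩ := hN4 _ hn' h0
    obtain ⟨s, hs⟩ := hZgen z hz
    refine ⟨TrivSqZeroExt.inl t + TrivSqZeroExt.inl s * DualNumber.eps, ?_⟩
    have h2 : epsIota ρbar z =
        ((TrivSqZeroExt.inl s : DualNumber k) * DualNumber.eps) • n₀ := by
      apply coord_ext
      · rw [dPi0_epsIota, dPi0_smul, TrivSqZeroExt.fst_mul, DualNumber.fst_eps, mul_zero,
          zero_smul]
      · rw [dPi1_epsIota, dPi1_smul, TrivSqZeroExt.fst_mul, DualNumber.fst_eps, mul_zero,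
          zero_smul, zero_add, hn₀, hs]
        congr 1
        simp
    rw [add_smul, ← h2, ← hzn]
    abel
  refine ⟨n₀, by rw [hn₀]; exact hl0, ?_, ?_⟩
  · intro σ hσ y
    exact hgen _ (sub_mem_augGroup P _ hσ y)
  · intro σ hσ
    exact hgen _ (map_mem_augGroup P T hσ hn₀N)

end S2

/-! ## Part D: the basis and the statement -/

section final

variable {k : Type} [Field k]

/-- An element of `k[ε] ⊗ V` with nonzero reduction is the first vector of a basis. -/
theorem exists_basis_of_dPi0_ne_zero (ρbar : ResidualGaloisRep k)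
    (n₀ : DualNumber k ⊗[k] ρbar.V) (h : dPi0 n₀ ≠ 0) :
    ∃ b : Module.Basis (Fin 2) (DualNumber k) (DualNumber k ⊗[k] ρbar.V), b 0 = n₀ := by
  classical
  have h2 := ρbar.finrank_eq
  set l₀ := dPi0 n₀ with hl₀
  set w₀ := dPi1 n₀ with hw₀
  obtain ⟨v₁, hv₁⟩ : ∃ v₁ : ρbar.V, v₁ ∉ Submodule.span k {l₀} := by
    by_contra hcon
    push Not at hcon
    have htop : Submodule.span k {l₀} = ⊤ := eq_top_iff.mpr fun x _ => hcon x
    have h1 := finrank_span_singleton (K := k) h
    rw [htop, finrank_top, h2] at h1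
    omega
  have hli : LinearIndependent k ![l₀, v₁] := by
    rw [LinearIndependent.pair_iff]
    intro s t hst
    have ht : t = 0 := by
      by_contra ht
      apply hv₁
      rw [Submodule.mem_span_singleton]
      refine ⟨-(t⁻¹ * s), ?_⟩
      have h3 : t • v₁ = -(s • l₀) := eq_neg_of_add_eq_zero_right hst
      calc (-(t⁻¹ * s)) • l₀ = t⁻¹ • (-(s • l₀)) := by rw [neg_smul, mul_smul, smul_neg]
        _ = t⁻¹ • (t • v₁) := by rw [h3]
        _ = v₁ := by rw [smul_smul, inv_mul_cancel₀ ht, one_smul]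
    rw [ht, zero_smul, add_zero] at hst
    exact ⟨(smul_eq_zero.mp hst).resolve_right h, ht⟩
  set B : Module.Basis (Fin 2) k ρbar.V :=
    basisOfLinearIndependentOfCardEqFinrank hli (by rw [h2, Fintype.card_fin]) with hB
  have hB0 : B 0 = l₀ := by
    rw [hB, coe_basisOfLinearIndependentOfCardEqFinrank]
    rfl
  set BX := Algebra.TensorProduct.basis (DualNumber k) B with hBX
  set g : ρbar.V →ₗ[k] ρbar.V := B.constr k ![w₀, 0] with hg
  have hg0 : g (B 0) = w₀ := by
    rw [hg, B.constr_basis]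
    rfl
  set G : Module.End (DualNumber k) (DualNumber k ⊗[k] ρbar.V) :=
    (DualNumber.eps : DualNumber k) • g.baseChange (DualNumber k) with hG
  have hGG : ∀ x, G (G x) = 0 := by
    intro x
    rw [hG]
    simp only [LinearMap.smul_apply, map_smul]
    rw [smul_smul, DualNumber.eps_mul_eps, zero_smul]
  have h12 : (LinearMap.id + G).comp (LinearMap.id - G) = LinearMap.id := by
    apply LinearMap.ext
    intro x
    simp only [LinearMap.comp_apply, LinearMap.add_apply, LinearMap.sub_apply,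
      LinearMap.id_apply, map_sub, hGG]
    abel
  have h21 : (LinearMap.id - G).comp (LinearMap.id + G) = LinearMap.id := by
    apply LinearMap.ext
    intro x
    simp only [LinearMap.comp_apply, LinearMap.add_apply, LinearMap.sub_apply,
      LinearMap.id_apply, map_add, hGG]
    abel
  set E : (DualNumber k ⊗[k] ρbar.V) ≃ₗ[DualNumber k] (DualNumber k ⊗[k] ρbar.V) :=
    LinearEquiv.ofLinear (LinearMap.id + G) (LinearMap.id - G) h12 h21 with hE
  refine ⟨BX.map E, ?_⟩
  rw [Module.Basis.map_apply, hBX, Algebra.TensorProduct.basis_apply, hB0]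
  have hEapp : ∀ x, E x = x + G x := fun x => rfl
  rw [hEapp, hG, LinearMap.smul_apply, LinearMap.baseChange_tmul, ← hB0, hg0]
  rw [hB0]
  exact (eq_coord n₀).symm

variable [Finite k] {p : ℕ} [Fact p.Prime] [CharP k p]

/-- **FLAT-O, STRUCT.**  A flat lift to `k[ε]` of a `ρ̄` with cyclotomic determinant and a
`D_P`-stable line is ordinary at `P` (Prelude shape `IsOrdinaryAt`, at the place `P`):
`L = k[ε] ∙ b 0` is the inertia augmentation. -/
theorem flatOrdLine (hp2 : p ≠ 2) (ρbar : ResidualGaloisRep k)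
    (hdet : ∀ (σ : GQ) (a : ℕ), IsCycExp p σ a → LinearMap.det (ρbar.ρ σ) = (a : k))
    (P : ValuationSubring Qb) (hP : P.LiesOverPrime p)
    (hred : ∃ U : Submodule k ρbar.V, U ≠ ⊥ ∧ U ≠ ⊤ ∧
      ∀ σ ∈ P.decompositionSubgroup ℚ, ∀ x ∈ U, ρbar.ρ σ x ∈ U)
    (c : GQ → Module.End k ρbar.V) (ρ' : GaloisRepAdic (DualNumber k))
    (hl : IsLiftOf ρbar c ρ') (hflat : ρ'.IsFlatAt p) :
    ∃ L : Submodule (DualNumber k) ρ'.V,
      (∃ b : Module.Basis (Fin 2) (DualNumber k) ρ'.V, L = (DualNumber k) ∙ b 0) ∧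
      (∀ σ ∈ P.decompositionSubgroup ℚ, ∀ v ∈ L, ρ'.ρ σ v ∈ L) ∧
      (∀ σ ∈ P.inertiaSubgroupIn ℚ, ∀ v : ρ'.V, ρ'.ρ σ v - v ∈ L) := by
  obtain ⟨Λ, hΛ⟩ := exists_lattice_lift ρbar c hl hflat
  obtain ⟨n₀, hn₀, hI, hD⟩ := exists_aug_generator ρbar c hp2 hl hΛ hdet P hP hred
  obtain ⟨b, hb⟩ := exists_basis_of_dPi0_ne_zero ρbar n₀ hn₀
  obtain ⟨e, he⟩ := hl
  have hsymm : ∀ (σ : GQ) (x : DualNumber k ⊗[k] ρbar.V),
      ρ'.ρ σ (e.symm x) = e.symm (liftEnd ρbar c σ x) := by
    intro σ x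
    apply e.injective
    rw [he, e.apply_symm_apply, e.apply_symm_apply]
  refine ⟨(DualNumber k) ∙ (e.symm n₀), ⟨b.map e.symm, ?_⟩, ?_, ?_⟩
  · rw [Module.Basis.map_apply, hb]
  · intro σ hσ v hv
    obtain ⟨a, rfl⟩ := Submodule.mem_span_singleton.mp hv
    obtain ⟨a', ha'⟩ := hD σ hσ
    rw [map_smul, hsymm, ha', map_smul]
    exact Submodule.smul_mem _ _ (Submodule.smul_mem _ _ (Submodule.mem_span_singleton_self _))
  · intro σ hσ v
    obtain ⟨a, ha⟩ := hI σ hσ (e v)
    have : ρ'.ρ σ v - v = a • e.symm n₀ := by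
      apply e.injective
      rw [map_sub, he, ha, map_smul, e.apply_symm_apply]
    rw [this]
    exact Submodule.smul_mem _ _ (Submodule.mem_span_singleton_self _)

end final

end Fermat.Agent.S56.FO.H6
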